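import Mathlib.NumberTheory.LSeries.Dirichlet
import Mathlib.NumberTheory.DirichletCharacter.Basic

/-!
# Multiplicative periodic functions

Such a function is a primitive character times a finite multiplicative series over the divisors
of the period.
-/

set_option autoImplicit false

noncomputable section

open ArithmeticFunction LSeries
open scoped Nat LSeries.notation ArithmeticFunction.Moebius

namespace FA.SelbergClass

variable {q : ℕ} [NeZero q]

theorem exists_coprime_lift (b : (ZMod q)ˣ) {n : ℕ} (hn : n ≠ 0) :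
    ∃ b' : ℕ, (b' : ZMod q) = b ∧ Nat.Coprime b' n := by
  have : NeZero (q * n) := ⟨mul_ne_zero (NeZero.ne q) hn⟩
  obtain ⟨u, hu⟩ := ZMod.unitsMap_surjective (dvd_mul_right q n) b
  refine ⟨(u : ZMod (q * n)).val, ?_, (ZMod.val_coe_unit_coprime u).coprime_mul_left_right⟩
  rw [← hu, ZMod.unitsMap_val, ZMod.natCast_val]

theorem exists_char (g : ZMod q → ℂ) (h1 : g 1 = 1)
    (hmul : ∀ m n : ℕ, Nat.Coprime m n → g (m * n : ℕ) = g m * g n) :
    ∃ χ : DirichletCharacter ℂ q, ∀ b : (ZMod q)ˣ, ∀ y, g (b * y) = χ b * g y := by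
  have key : ∀ b : (ZMod q)ˣ, ∀ y, g (b * y) = g b * g y := fun b y => by
    have hn : y.val + q ≠ 0 := by have := NeZero.ne q; omega
    obtain ⟨b', hb', hcop⟩ := exists_coprime_lift b hn
    have h2 := hmul b' _ hcop
    simpa [hb'] using h2
  have hne : ∀ b : (ZMod q)ˣ, g b ≠ 0 := fun b e => by
    have h2 := key b (b⁻¹ : (ZMod q)ˣ)
    rw [Units.mul_inv, h1, e, zero_mul] at h2
    exact one_ne_zero h2
  let f : (ZMod q)ˣ →* ℂˣ :=
    { toFun := fun b => Units.mk0 (g b) (hne b)
      map_one' := Units.ext h1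
      map_mul' := fun b c => Units.ext (key b c) }
  refine ⟨MulChar.ofUnitHom f, fun b y => ?_⟩
  rw [MulChar.ofUnitHom_coe]
  exact key b y

omit [NeZero q] in
theorem eq_primitive_of_coprime (χ : DirichletCharacter ℂ q) {n : ℕ} (hn : Nat.Coprime n q) :
    χ.primitiveCharacter (n : ZMod χ.conductor) = χ (n : ZMod q) := by
  simpa using χ.primitiveCharacter_apply_of_isCoprime (a := (n : ℤ))
    (Nat.isCoprime_iff_coprime.2 hn)

/-- Beyond the power of `p` in the period the function follows the primitive character. -/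
theorem prime_power_step {g : ZMod q → ℂ} {χ : DirichletCharacter ℂ q}
    (hχ : ∀ b : (ZMod q)ˣ, ∀ y, g (b * y) = χ b * g y) {p : ℕ} (hp : p.Prime) {k : ℕ}
    (hk : q.factorization p ≤ k) :
    g (p ^ (k + 1) : ℕ) = χ.primitiveCharacter (p : ZMod χ.conductor) * g (p ^ k : ℕ) := by
  set v := q.factorization p
  set q' := q / p ^ v
  have hdvd : p ^ v ∣ q := Nat.ordProj_dvd q p
  have hq : p ^ v * q' = q := Nat.mul_div_cancel' hdvd
  have hpq' : Nat.Coprime p q' := Nat.coprime_ordCompl hp (NeZero.ne q)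
  have hcop : Nat.Coprime (p ^ v) q' := hpq'.pow_left v
  obtain ⟨b, hb1, hb2⟩ := Nat.chineseRemainder hcop 1 p
  have hbq : Nat.Coprime b q := by
    rw [← hq]
    refine Nat.Coprime.mul_right ?_ ?_
    · rw [Nat.Coprime, hb1.gcd_eq]
      exact Nat.gcd_one_left _
    · rw [Nat.Coprime, hb2.gcd_eq]
      exact hpq'
  obtain ⟨e, he⟩ : ∃ e, k = v + e := ⟨k - v, by omega⟩
  have hcast : ((p ^ (k + 1) : ℕ) : ZMod q) = ((ZMod.unitOfCoprime b hbq : (ZMod q)ˣ) : ZMod q) *
      ((p ^ k : ℕ) : ZMod q) := by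
    rw [ZMod.coe_unitOfCoprime, ← Nat.cast_mul, ZMod.natCast_eq_natCast_iff, ← hq, he,
      show p ^ (v + e + 1) = p ^ v * (p * p ^ e) by ring,
      show b * p ^ (v + e) = p ^ v * (b * p ^ e) by ring]
    exact Nat.ModEq.mul_left' _ (hb2.symm.mul_right _)
  rw [hcast, hχ, ZMod.coe_unitOfCoprime]
  by_cases h0 : g (p ^ k : ℕ) = 0
  · rw [h0, mul_zero, mul_zero]
  congr 1
  have hf : χ.conductor ∣ q' := by
    refine χ.conductor_dvd_of_mem_conductorSet
      ((DirichletCharacter.mem_conductorSet_iff χ).2 ?_)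
    refine (χ.factorsThrough_iff_ker_unitsMap ⟨p ^ v, by rw [mul_comm, hq]⟩).2 fun u hu => ?_
    rw [MonoidHom.mem_ker, Units.ext_iff, ZMod.unitsMap_val, Units.val_one] at hu
    have hv : ((u : ZMod q).val : ZMod q') = 1 := by rwa [ZMod.natCast_val]
    rw [← Nat.cast_one, ZMod.natCast_eq_natCast_iff] at hv
    have hfix : (u : ZMod q) * ((p ^ k : ℕ) : ZMod q) = ((p ^ k : ℕ) : ZMod q) := by
      have h2 : (((u : ZMod q).val * p ^ k : ℕ) : ZMod q) = ((p ^ k : ℕ) : ZMod q) := by
        rw [ZMod.natCast_eq_natCast_iff]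
        generalize (u : ZMod q).val = w at hv ⊢
        rw [← hq, he, show w * p ^ (v + e) = p ^ v * (w * p ^ e) by ring,
          show p ^ (v + e) = p ^ v * (1 * p ^ e) by ring]
        exact Nat.ModEq.mul_left' _ (hv.mul_right _)
      simpa using h2
    have h3 := hχ u (p ^ k : ℕ)
    rw [hfix] at h3
    rw [MonoidHom.mem_ker, Units.ext_iff, MulChar.coe_toUnitHom, Units.val_one]
    exact (mul_eq_right₀ h0).1 h3.symm
  rw [← eq_primitive_of_coprime χ hbq]
  congr 1
  exact (ZMod.natCast_eq_natCast_iff _ _ _).2 (hb2.of_dvd hf)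

/-- The finite part: the quotient by the primitive character. -/
def finitePart (g : ZMod q → ℂ) (χ : DirichletCharacter ℂ q) : ArithmeticFunction ℂ :=
  toArithmeticFunction (fun n : ℕ => g n) *
    toArithmeticFunction (fun n : ℕ => χ.primitiveCharacter (n : ZMod χ.conductor) * (μ n : ℂ))

theorem coe_toArithmeticFunction {f : ℕ → ℂ} {n : ℕ} (hn : n ≠ 0) :
    toArithmeticFunction f n = f n := by
  simp [toArithmeticFunction, hn]

omit [NeZero q] in
theorem isMultiplicative_finitePart {g : ZMod q → ℂ} {χ : DirichletCharacter ℂ q} (h1 : g 1 = 1)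
    (hmul : ∀ m n : ℕ, Nat.Coprime m n → g (m * n : ℕ) = g m * g n) :
    (finitePart g χ).IsMultiplicative := by
  refine IsMultiplicative.mul (IsMultiplicative.iff_ne_zero.2 ⟨?_, fun {m n} hm hn hmn => ?_⟩)
    (IsMultiplicative.iff_ne_zero.2 ⟨?_, fun {m n} hm hn hmn => ?_⟩)
  · simp [coe_toArithmeticFunction one_ne_zero, h1]
  · rw [coe_toArithmeticFunction (mul_ne_zero hm hn), coe_toArithmeticFunction hm,
      coe_toArithmeticFunction hn, hmul m n hmn]
  · simp [coe_toArithmeticFunction one_ne_zero]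
  · rw [coe_toArithmeticFunction (mul_ne_zero hm hn), coe_toArithmeticFunction hm,
      coe_toArithmeticFunction hn, isMultiplicative_moebius.map_mul_of_coprime hmn]
    push_cast
    rw [map_mul]
    ring

omit [NeZero q] in
theorem finitePart_prime_pow (g : ZMod q → ℂ) (χ : DirichletCharacter ℂ q) {p : ℕ} (hp : p.Prime)
    (k : ℕ) : finitePart g χ (p ^ (k + 1)) =
      g (p ^ (k + 1) : ℕ) - χ.primitiveCharacter (p : ZMod χ.conductor) * g (p ^ k : ℕ) := by
  have hp0 := hp.ne_zero
  rw [finitePart, ArithmeticFunction.mul_apply,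
    Nat.sum_divisorsAntidiagonal' (fun x y => toArithmeticFunction (fun n : ℕ => g n) x *
      toArithmeticFunction
        (fun n : ℕ => χ.primitiveCharacter (n : ZMod χ.conductor) * (μ n : ℂ)) y),
    Nat.sum_divisors_prime_pow hp, Finset.sum_range_succ', Finset.sum_range_succ']
  rw [Finset.sum_eq_zero fun i _ => ?_]
  · rw [pow_one, pow_zero, Nat.div_one, pow_succ, Nat.mul_div_cancel _ hp.pos,
      coe_toArithmeticFunction (pow_ne_zero k hp0), coe_toArithmeticFunction hp0,
      coe_toArithmeticFunction one_ne_zero, coe_toArithmeticFunction (by positivity),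
      moebius_apply_prime hp, moebius_apply_one]
    push_cast
    rw [map_one]
    ring
  · rw [coe_toArithmeticFunction (pow_ne_zero (i + 1 + 1) hp0),
      moebius_apply_prime_pow hp (by omega), if_neg (by omega)]
    simp

theorem finitePart_eq_zero {g : ZMod q → ℂ} {χ : DirichletCharacter ℂ q} (h1 : g 1 = 1)
    (hmul : ∀ m n : ℕ, Nat.Coprime m n → g (m * n : ℕ) = g m * g n)
    (hχ : ∀ b : (ZMod q)ˣ, ∀ y, g (b * y) = χ b * g y) {n : ℕ} (hn : ¬ n ∣ q) :
    finitePart g χ n = 0 := by
  rcases eq_or_ne n 0 with rfl | hn0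
  · exact ArithmeticFunction.map_zero
  rw [← Nat.factorization_le_iff_dvd hn0 (NeZero.ne q)] at hn
  obtain ⟨p, hlt⟩ : ∃ p, q.factorization p < n.factorization p := by
    by_contra hno
    push Not at hno
    exact hn fun p => hno p
  have hp : p.Prime := by
    by_contra hp
    rw [Nat.factorization_eq_zero_of_not_prime n hp] at hlt
    omega
  rw [(isMultiplicative_finitePart h1 hmul).multiplicative_factorization _ hn0, Finsupp.prod]
  refine Finset.prod_eq_zero (i := p) (Finsupp.mem_support_iff.2 (by omega)) ?_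
  obtain ⟨k, hk⟩ : ∃ k, n.factorization p = k + 1 := ⟨n.factorization p - 1, by omega⟩
  rw [hk, finitePart_prime_pow g χ hp, prime_power_step hχ hp (by omega), sub_self]

omit [NeZero q] in
theorem finitePart_mul (g : ZMod q → ℂ) (χ : DirichletCharacter ℂ q) :
    finitePart g χ * toArithmeticFunction (fun n : ℕ => χ.primitiveCharacter (n : ZMod χ.conductor))
      = toArithmeticFunction (fun n : ℕ => g n) := by
  rw [finitePart, mul_assoc]
  have h : toArithmeticFunction
      (fun n : ℕ => χ.primitiveCharacter (n : ZMod χ.conductor) * (μ n : ℂ)) *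
      toArithmeticFunction (fun n : ℕ => χ.primitiveCharacter (n : ZMod χ.conductor)) = 1 := by
    ext n
    have h2 := congrFun (DirichletCharacter.convolution_mul_moebius χ.primitiveCharacter) n
    rw [mul_comm, ArithmeticFunction.one_apply]
    simpa [LSeries.convolution, LSeries.delta, Pi.mul_def] using h2
  rw [h, mul_one]

end FA.SelbergClass

end
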