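import Fermat.Agent.SelbergClass.Pairing
import Mathlib.Algebra.Polynomial.Splits
import Mathlib.Analysis.Complex.Polynomial.Basic

/-!
# Euler products

The axiom, and the bound it puts on the top coefficient of a finite multiplicative series.
-/

set_option autoImplicit false

noncomputable section

open Complex Filter Topology
open scoped Real ComplexConjugate
open FA.DegreeGap (HasFunctionalEquation degree gammaFactor pt pt_re)

namespace FA.SelbergClass

/-- `a` is multiplicative and each local series converges to a nonzero value on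
`‖X‖ < p ^ (-θ)`. -/
def LocalFactors (a : ℕ → ℂ) (θ : ℝ) : Prop :=
  ∀ p : ℕ, p.Prime → ∀ X : ℂ, ‖X‖ < (p : ℝ) ^ (-θ) →
    ∃ s : ℂ, s ≠ 0 ∧ HasSum (fun k => a (p ^ k) * X ^ k) s

/-- Selberg's Euler product. -/
structure HasEulerProduct (a : ℕ → ℂ) : Prop where
  map_one : a 1 = 1
  map_mul : ∀ m n : ℕ, Nat.Coprime m n → a (m * n) = a m * a n
  local_factors : ∃ θ : ℝ, θ < 1 / 2 ∧ LocalFactors a θ

theorem LocalFactors.mono {a : ℕ → ℂ} {θ θ' : ℝ} (h : LocalFactors a θ) (hle : θ ≤ θ') :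
    LocalFactors a θ' := fun p hp X hX => h p hp X (hX.trans_le
  (Real.rpow_le_rpow_of_exponent_le (Nat.one_le_cast.2 hp.one_lt.le) (neg_le_neg hle)))

/-- Selberg's form of the axiom: the local factor is the exponential of `∑ b k X ^ k` with
`‖b k‖ ≤ C p ^ (k θ)`. -/
theorem localFactors_of_log {a : ℕ → ℂ} {θ : ℝ}
    (h : ∀ p : ℕ, p.Prime → ∃ b : ℕ → ℂ, (∃ C : ℝ, ∀ k, ‖b k‖ ≤ C * ((p : ℝ) ^ θ) ^ k) ∧
      ∀ (X : ℂ) (l : ℂ), ‖X‖ < (p : ℝ) ^ (-θ) → HasSum (fun k => b k * X ^ k) l →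
        HasSum (fun k => a (p ^ k) * X ^ k) (cexp l)) : LocalFactors a θ := by
  intro p hp X hX
  obtain ⟨b, ⟨C, hC⟩, hexp⟩ := h p hp
  have hp0 : (0 : ℝ) < (p : ℝ) ^ θ := Real.rpow_pos_of_pos (Nat.cast_pos.2 hp.pos) θ
  have hr : (p : ℝ) ^ θ * ‖X‖ < 1 := by
    rw [Real.rpow_neg (Nat.cast_nonneg p), ← one_div, lt_div_iff₀ hp0] at hX
    linarith
  have hs : Summable fun k => b k * X ^ k :=
    ((summable_geometric_of_lt_one (by positivity) hr).mul_left C).of_norm_bounded fun k => by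
      rw [norm_mul, norm_pow, mul_pow, ← mul_assoc]
      exact mul_le_mul_of_nonneg_right (hC k) (by positivity)
  exact ⟨_, Complex.exp_ne_zero _, hexp X _ hX hs.hasSum⟩

theorem top_coeff_le {u : ℕ → ℂ} {k : ℕ} (h0 : u 0 = 1) (hk : u k ≠ 0)
    (hsupp : ∀ l, k < l → u l = 0) {ρ : ℝ} (hρ : 0 < ρ)
    (hnz : ∀ X : ℂ, ‖X‖ < ρ → ∑' l, u l * X ^ l ≠ 0) : ‖u k‖ * ρ ^ k ≤ 1 := by
  classical
  set P : Polynomial ℂ := ∑ l ∈ Finset.range (k + 1), Polynomial.monomial l (u l)
  have hcoeff : ∀ l, P.coeff l = u l := fun l => by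
    simp only [P, Polynomial.finsetSum_coeff, Polynomial.coeff_monomial, Finset.sum_ite_eq',
      Finset.mem_range]
    split_ifs with hl
    · rfl
    · exact (hsupp l (by omega)).symm
  have hne : P ≠ 0 := fun e => hk (by rw [← hcoeff, e, Polynomial.coeff_zero])
  have hdeg : P.natDegree = k :=
    le_antisymm (Polynomial.natDegree_le_iff_coeff_eq_zero.2 fun l hl => by
      rw [hcoeff]
      exact hsupp l hl) (Polynomial.le_natDegree_of_ne_zero (by rw [hcoeff]; exact hk))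
  have heval : ∀ X : ℂ, ∑' l, u l * X ^ l = P.eval X := fun X => by
    rw [tsum_eq_sum (s := Finset.range (k + 1)) fun l hl => by
      rw [hsupp l (by rw [Finset.mem_range] at hl; omega), zero_mul]]
    simp [P, Polynomial.eval_finsetSum, Polynomial.eval_monomial]
  have hroot : ∀ z ∈ P.roots, ρ ≤ ‖z‖ := fun z hz => by
    by_contra hlt
    exact hnz z (not_le.1 hlt) ((heval z).trans ((Polynomial.mem_roots hne).1 hz))
  have hsplit : P.Splits := IsAlgClosed.splits P
  have e := congrArg norm hsplit.coeff_zero_eq_leadingCoeff_mul_prod_roots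
  rw [hcoeff, h0, Polynomial.leadingCoeff, hdeg, hcoeff, norm_one, norm_mul, norm_mul, norm_pow,
    norm_neg, norm_one, one_pow, one_mul] at e
  have hcard : P.roots.card = k := by rw [← hsplit.natDegree_eq_card_roots, hdeg]
  have hprod : ∀ s : Multiset ℂ, (∀ z ∈ s, ρ ≤ ‖z‖) → ρ ^ s.card ≤ ‖s.prod‖ := by
    intro s
    induction s using Multiset.induction_on with
    | empty => simp
    | cons z s ih =>
      intro hs
      rw [Multiset.prod_cons, norm_mul, Multiset.card_cons, pow_succ']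
      exact mul_le_mul (hs z (Multiset.mem_cons_self z s))
        (ih fun y hy => hs y (Multiset.mem_cons_of_mem hy)) (by positivity) (norm_nonneg _)
  rw [e]
  exact mul_le_mul_of_nonneg_left (hcard ▸ hprod P.roots hroot) (norm_nonneg _)

/-- A self-reflected multiplicative finite series with `θ < 1/2` is `1`. -/
theorem eq_one_of_reflected {h : ℕ → ℂ} (h1 : h 1 = 1)
    (hmul : ∀ m n : ℕ, Nat.Coprime m n → h (m * n) = h m * h n) {θ : ℝ} (hθ : θ < 1 / 2)
    (hloc : ∀ p : ℕ, p.Prime → ∀ X : ℂ, ‖X‖ < (p : ℝ) ^ (-θ) → ∑' k, h (p ^ k) * X ^ k ≠ 0)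
    {M : ℕ} (hM : M ≠ 0) (hdvd : ∀ n, n ≠ 0 → h n ≠ 0 → n ∣ M) (hsq : ‖h M‖ ^ 2 = M) :
    M = 1 := by
  have hMne : h M ≠ 0 := fun e => by
    rw [e, norm_zero, zero_pow two_ne_zero] at hsq
    exact hM (by exact_mod_cast hsq.symm)
  have hfac := Nat.multiplicative_factorization h hmul h1 hM
  have hle : ‖h M‖ ≤ (M : ℝ) ^ θ := by
    conv_rhs => rw [← Nat.prod_factorization_pow_eq_self hM]
    rw [hfac, Finsupp.prod, Finsupp.prod, norm_prod, Nat.cast_prod,
      ← Real.finsetProd_rpow _ _ fun p _ => by positivity]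
    refine Finset.prod_le_prod (fun p _ => norm_nonneg _) fun p hp => ?_
    rw [Nat.support_factorization] at hp
    have hpp := Nat.prime_of_mem_primeFactors hp
    set k := M.factorization p
    have hk : h (p ^ k) ≠ 0 := by
      intro e
      refine hMne (hfac.trans (Finset.prod_eq_zero (i := p) ?_ e))
      rwa [Nat.support_factorization]
    have hsupp : ∀ l, k < l → h (p ^ l) = 0 := fun l hl => by
      by_contra hne
      exact absurd ((hpp.pow_dvd_iff_le_factorization hM).1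
        (hdvd _ (pow_ne_zero l hpp.ne_zero) hne)) (not_le.2 hl)
    have hρ : (0 : ℝ) < (p : ℝ) ^ (-θ) := Real.rpow_pos_of_pos (Nat.cast_pos.2 hpp.pos) _
    have := top_coeff_le (u := fun l => h (p ^ l)) (k := k) (by simpa using h1) hk hsupp hρ
      (hloc p hpp)
    rw [Real.rpow_neg (Nat.cast_nonneg p), inv_pow, ← div_eq_mul_inv,
      div_le_one (pow_pos (Real.rpow_pos_of_pos (Nat.cast_pos.2 hpp.pos) θ) k)] at this
    refine this.trans_eq ?_
    rw [Nat.cast_pow, ← Real.rpow_natCast, ← Real.rpow_natCast, ← Real.rpow_mul (Nat.cast_nonneg p),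
      ← Real.rpow_mul (Nat.cast_nonneg p), mul_comm]
  by_contra hne
  have hM1 : (1 : ℝ) < M := by
    exact_mod_cast (show 1 < M by omega)
  have h2 : (M : ℝ) ^ (1 / 2 : ℝ) ≤ (M : ℝ) ^ θ := by
    refine le_trans ?_ hle
    rw [← Real.sqrt_eq_rpow, ← hsq, Real.sqrt_sq (norm_nonneg _)]
  exact absurd h2 (not_le.2 (Real.rpow_lt_rpow_of_exponent_lt hM1 hθ))

variable {a : ℕ → ℂ} {m : ℕ} {E : ℂ → ℂ} {r : ℕ} {lam : Fin r → ℝ} {mu : Fin r → ℂ} {Q : ℝ}
  {omega : ℂ}

/-- **Degree zero is trivial.** -/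
theorem eq_zero_of_degree_zero (h : HasFunctionalEquation a m E lam mu Q omega)
    (he : HasEulerProduct a) (hd : degree lam = 0) : ∀ n, 1 < n → a n = 0 := by
  have hr : r = 0 := by
    by_contra hne
    have : Nonempty (Fin r) := ⟨⟨0, Nat.pos_of_ne_zero hne⟩⟩
    have : 0 < ∑ j, lam j := Finset.sum_pos (fun j _ => h.lam_pos j) Finset.univ_nonempty
    rw [degree] at hd
    linarith
  subst hr
  obtain ⟨θ, hθ, hloc⟩ := he.local_factors
  obtain ⟨j₁, hj₁, hN⟩ := FA.DegreeGap.exists_partner h one_ne_zero (by rw [he.map_one]; simp)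
  rw [one_mul] at hN
  have hj₁0 : j₁ ≠ 0 := fun e => by
    rw [e, Nat.cast_zero] at hN
    exact (pow_pos h.Q_pos 2).ne hN
  have hsupp : ∀ n, j₁ < n → a n = 0 := fun n hn => by
    by_contra hne
    obtain ⟨j, -, hj⟩ := FA.DegreeGap.exists_partner h (n := n) (by omega) hne
    rw [← hN] at hj
    have := Nat.le_of_dvd (Nat.pos_of_ne_zero hj₁0) ⟨j, (Nat.cast_injective (R := ℝ) hj).symm⟩
    omega
  have hd1 : degree lam < 1 := by rw [hd]; exact one_pos
  have hgf : ∀ s : ℂ, gammaFactor lam mu Q s = (Q : ℂ) ^ s := fun s => by simp [gammaFactor]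
  have hQ : (Q : ℂ) ≠ 0 := ofReal_ne_zero.2 h.Q_pos.ne'
  have hω : omega ≠ 0 := norm_ne_zero_iff.1 (by rw [h.norm_omega]; exact one_ne_zero)
  have hzero : ∀ t : ℝ, (1 : ℂ) * LSeries a (pt (-1) t) -
      omega * (Q : ℂ) ^ 3 * cexp ((-(2 * Real.log Q) : ℝ) * I * t) *
        conj (LSeries a (pt (1 - -1) t)) = 0 := by
    intro t
    rw [sub_eq_zero, one_mul, h.lSeries_left hd1 (by rw [pt_re]; norm_num),
      FA.DegreeGap.one_sub_conj_pt, hgf, hgf, map_mul]
    have hQc : conj ((Q : ℂ) ^ pt (1 - -1) t) * ((Q : ℂ) ^ pt (-1) t)⁻¹ =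
        (Q : ℂ) ^ 3 * cexp ((-(2 * Real.log Q) : ℝ) * I * t) := by
      rw [← cpow_neg, cpow_def_of_ne_zero hQ, cpow_def_of_ne_zero hQ, ← Complex.exp_conj,
        ← ofReal_log h.Q_pos.le, ← Complex.exp_add,
        show (Q : ℂ) ^ 3 = cexp ((Real.log Q : ℂ) * 3) by
          rw [mul_comm, ← Nat.cast_ofNat (R := ℂ) (n := 3), Complex.exp_nat_mul, ← ofReal_exp,
            Real.exp_log h.Q_pos],
        ← Complex.exp_add]
      congr 1
      simp only [pt, map_mul, map_add, conj_ofReal, conj_I]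
      push_cast
      ring
    linear_combination (omega * conj (LSeries a (pt (1 - -1) t))) * hQc
  obtain ⟨M, hM, -, hdvd, hsq⟩ := exists_top hsupp he.map_one
    (mul_ne_zero hω (pow_ne_zero 3 hQ)) (tendsto_const_nhds.congr fun t => (hzero t).symm)
  have h1 := eq_one_of_reflected he.map_one he.map_mul hθ (fun p hp X hX => by
    obtain ⟨s, hs, hsum⟩ := hloc p hp X hX
    rwa [hsum.tsum_eq]) hM hdvd hsq
  intro n hn
  by_contra hne
  have := Nat.le_of_dvd one_pos (h1 ▸ hdvd n (by omega) hne)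
  omega

end FA.SelbergClass

end
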