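import Fermat.Agent.DegreeOne.Ratio
import Mathlib.NumberTheory.LSeries.DirichletContinuation

/-!
# The functional equation of a primitive character as a reflection ratio
-/

set_option autoImplicit false

noncomputable section

open Complex
open scoped Real ComplexConjugate
open FA.DegreeOne (reflRatio)

namespace FA.SelbergClass

variable {f : ℕ} [NeZero f]

omit [NeZero f] in
theorem conj_lSeries_char (χ : DirichletCharacter ℂ f) (s : ℂ) :
    conj (LSeries (fun n : ℕ => χ n) s) = LSeries (fun n : ℕ => χ⁻¹ n) (conj s) := by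
  rw [LSeries, LSeries, Complex.conj_tsum]
  refine tsum_congr fun n => ?_
  rcases eq_or_ne n 0 with rfl | hn
  · simp
  simp only [LSeries.term_of_ne_zero hn, map_div₀, ← MulChar.star_apply', RCLike.star_def,
    cpow_def_of_ne_zero (Nat.cast_ne_zero.2 hn : (n : ℂ) ≠ 0), ← Complex.exp_conj, map_mul]
  rw [← ofReal_natCast, ← ofReal_log (Nat.cast_nonneg n), conj_ofReal]

omit [NeZero f] in
theorem inv_even_iff (χ : DirichletCharacter ℂ f) : χ⁻¹.Even ↔ χ.Even := by
  simp only [DirichletCharacter.Even, ← MulChar.star_apply', star_eq_iff_star_eq, star_one]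
  exact eq_comm

/-- `0` or `1`. -/
def parity (χ : DirichletCharacter ℂ f) : ℝ :=
  open Classical in if χ.Even then 0 else 1

omit [NeZero f] in
theorem parity_nonneg (χ : DirichletCharacter ℂ f) : 0 ≤ parity χ := by
  rw [parity]; split_ifs <;> norm_num

omit [NeZero f] in
theorem gammaFactor_eq (χ : DirichletCharacter ℂ f) (w : ℂ) :
    DirichletCharacter.gammaFactor χ w = Gammaℝ (w + parity χ) := by
  rw [DirichletCharacter.gammaFactor, parity]
  split_ifs <;> simp

theorem reflRatio_char (a θ : ℝ) (s : ℂ) :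
    reflRatio (fun _ : Fin 1 => (1 / 2 : ℝ)) (fun _ => ((a : ℂ) + θ * I) / 2)
        (Real.sqrt (f / π)) s =
      (f : ℂ) ^ (1 / 2 - s) * Gammaℝ (1 - (s + θ * I) + a) * (Gammaℝ (s + θ * I + a))⁻¹ *
        cexp (-((θ * Real.log (π : ℝ) : ℝ) : ℂ) * I) := by
  have hf : (0 : ℝ) < f := Nat.cast_pos.2 (Nat.pos_of_ne_zero (NeZero.ne f))
  have hQ : 0 < Real.sqrt (f / π) := Real.sqrt_pos.2 (div_pos hf Real.pi_pos)
  have hπ : (π : ℂ) ≠ 0 := ofReal_ne_zero.2 Real.pi_ne_zero
  have e1 : conj (Complex.Gamma (((1 / 2 : ℝ) : ℂ) * (1 - conj s) + ((a : ℂ) + θ * I) / 2)) =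
      Complex.Gamma ((1 - (s + θ * I) + a) / 2) := by
    rw [← Complex.Gamma_conj]
    congr 1
    simp [Complex.conj_ofNat]
    ring
  have e2 : ((1 / 2 : ℝ) : ℂ) * s + ((a : ℂ) + θ * I) / 2 = (s + θ * I + a) / 2 := by
    push_cast
    ring
  rw [reflRatio, Fin.prod_univ_one, e1, e2, Gammaℝ_def, Gammaℝ_def, mul_inv, ← cpow_neg,
    cpow_def_of_ne_zero (ofReal_ne_zero.2 hQ.ne'), cpow_def_of_ne_zero hπ,
    cpow_def_of_ne_zero hπ, cpow_def_of_ne_zero (Nat.cast_ne_zero.2 (NeZero.ne f)),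
    ← ofReal_log hQ.le, ← ofReal_natCast, ← ofReal_log hf.le, ← ofReal_log Real.pi_pos.le,
    Real.log_sqrt (div_pos hf Real.pi_pos).le, Real.log_div hf.ne' Real.pi_ne_zero]
  rw [show ∀ B C D G₁ G₂ E : ℂ, B * (C * G₁) * (D * G₂) * E = B * C * D * E * (G₁ * G₂) from
    fun B C D G₁ G₂ E => by ring, ← Complex.exp_add, ← Complex.exp_add, ← Complex.exp_add]
  congr 2
  push_cast
  ring

/-- The constant of the reflection. -/
def rootConst (χ : DirichletCharacter ℂ f) (θ : ℝ) : ℂ :=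
  (f : ℂ) ^ (-((θ : ℂ) * I)) * DirichletCharacter.rootNumber χ *
    cexp (((θ * Real.log (π : ℝ) : ℝ) : ℂ) * I)

theorem lFunction_left_eq {χ : DirichletCharacter ℂ f} (hχ : χ.IsPrimitive) (θ : ℝ) {s : ℂ}
    (hs : s.re < 0) : χ.LFunction (s + θ * I) =
      rootConst χ θ * reflRatio (fun _ : Fin 1 => (1 / 2 : ℝ))
          (fun _ => ((parity χ : ℂ) + θ * I) / 2) (Real.sqrt (f / π)) s *
        conj (LSeries (fun n : ℕ => χ n) (1 - conj s + θ * I)) := by
  rw [rootConst]
  set S := s + (θ : ℂ) * I with hS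
  have hSre : S.re = s.re := by simp [hS]
  have hS0 : S ≠ 0 := fun e => by rw [e] at hSre; simp at hSre; linarith
  have hS1 : 1 - S ≠ 0 := fun e => by
    have h := congrArg Complex.re e
    simp [hSre] at h
    linarith
  have h1 : 1 - S = conj (1 - conj s + θ * I) := by
    simp [hS]
    ring
  have hL : conj (LSeries (fun n : ℕ => χ n) (1 - conj s + θ * I)) = χ⁻¹.LFunction (1 - S) := by
    rw [conj_lSeries_char, ← h1, DirichletCharacter.LFunction_eq_LSeries]
    simp [hSre]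
    linarith
  have hG : DirichletCharacter.gammaFactor χ⁻¹ (1 - S) = Gammaℝ (1 - S + parity χ) := by
    rw [gammaFactor_eq, parity, parity]
    by_cases h : χ.Even <;> simp [h, inv_even_iff]
  have hGne : Gammaℝ (1 - S + parity χ) ≠ 0 := Gammaℝ_ne_zero_of_re_pos (by
    simp [hSre]; linarith [parity_nonneg χ])
  have hfe := hχ.completedLFunction_one_sub (1 - S)
  rw [sub_sub_cancel] at hfe
  rw [DirichletCharacter.LFunction_eq_completed_div_gammaFactor χ S (Or.inl hS0), hfe, hL,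
    DirichletCharacter.LFunction_eq_completed_div_gammaFactor χ⁻¹ (1 - S) (Or.inl hS1), hG,
    gammaFactor_eq, reflRatio_char, ← hS]
  have hf' : (f : ℂ) ≠ 0 := Nat.cast_ne_zero.2 (NeZero.ne f)
  rw [show (1 : ℂ) - S - 1 / 2 = (1 / 2 - s) + -((θ : ℂ) * I) by rw [hS]; ring, cpow_add _ _ hf']
  field_simp
  have e4 : cexp (I * ((θ * Real.log (π : ℝ) : ℝ) : ℂ)) *
      cexp (-(I * ((θ * Real.log (π : ℝ) : ℝ) : ℂ))) = 1 := by
    rw [← Complex.exp_add, add_neg_cancel, Complex.exp_zero]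
  linear_combination -((f : ℂ) ^ ((1 - 2 * s) / 2) * (f : ℂ) ^ (-((θ : ℂ) * I)) *
    DirichletCharacter.rootNumber χ * DirichletCharacter.completedLFunction χ⁻¹ (1 - S) *
      (Gammaℝ (S + parity χ))⁻¹) * e4

theorem lFunction_left {χ : DirichletCharacter ℂ f} (hχ : χ.IsPrimitive) (θ : ℝ) :
    ∃ e : ℂ, ∀ s : ℂ, s.re < 0 → χ.LFunction (s + θ * I) =
      e * reflRatio (fun _ : Fin 1 => (1 / 2 : ℝ)) (fun _ => ((parity χ : ℂ) + θ * I) / 2)
          (Real.sqrt (f / π)) s *
        conj (LSeries (fun n : ℕ => χ n) (1 - conj s + θ * I)) :=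
  ⟨rootConst χ θ, fun _ hs => lFunction_left_eq hχ θ hs⟩

end FA.SelbergClass

end
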