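import Fermat.Agent.SelbergClass.Series
import Fermat.Agent.SelbergClass.Reflect
import Fermat.Agent.DegreeOne.Periodic

/-!
# The Selberg class in degree one

The periodic series is `L (χ, s)` times a finite series `D`; the two functional equations make `D`
its own reflection up to `o 1`, and the Euler product then makes it `1`.
-/

set_option autoImplicit false

noncomputable section

open Complex Filter Topology Set
open scoped Real ComplexConjugate
open FA.DegreeGap (HasFunctionalEquation degree pt pt_re gammaFactor)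
open FA.DegreeOne (reflRatio rateK shiftT twist conj_inv_eq tendsto_kernel exists_structure)

namespace FA.SelbergClass

variable {a : ℕ → ℂ} {m : ℕ} {E : ℂ → ℂ} {r : ℕ} {lam : Fin r → ℝ} {mu : Fin r → ℂ} {Q : ℝ}
  {omega : ℂ}

theorem norm_lSeries_line_le {u : ℕ → ℂ} {σ : ℝ} (hu : LSeriesSummable u (σ : ℂ)) (t : ℝ) :
    ‖LSeries u (pt σ t)‖ ≤ ∑' n, ‖LSeries.term u (σ : ℂ) n‖ :=
  FA.DegreeGap.norm_lSeries_le hu (pt_re σ t).ge

theorem rateK_char (f : ℕ) [NeZero f] :
    rateK (fun _ : Fin 1 => (1 / 2 : ℝ)) (Real.sqrt (f / π)) = Real.log (f / (2 * π)) := by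
  have hf : (0 : ℝ) < f := Nat.cast_pos.2 (Nat.pos_of_ne_zero (NeZero.ne f))
  rw [rateK, Fin.sum_univ_one, Real.log_sqrt (div_pos hf Real.pi_pos).le, one_div (2 : ℝ),
    Real.log_inv, Real.log_div hf.ne' Real.pi_ne_zero,
    Real.log_div hf.ne' (by positivity : (2 * π) ≠ 0),
    Real.log_mul two_ne_zero Real.pi_ne_zero]
  ring

/-- `E` is the product, as entire functions away from the pole of the character. -/
theorem eq_product (h : HasFunctionalEquation a m E lam mu Q omega) {f : ℕ} [NeZero f]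
    (χ : DirichletCharacter ℂ f) {u : ℕ → ℂ} {N : ℕ} (hu : ∀ n, N < n → u n = 0) (θ : ℝ)
    (hL : ∀ s : ℂ, 1 < s.re → LSeries a s = LSeries u (s + θ * I) * χ.LFunction (s + θ * I))
    {s : ℂ} (hs : s ≠ 1 - θ * I) :
    E s = (s - 1) ^ m * (LSeries u (s + θ * I) * χ.LFunction (s + θ * I)) := by
  set U : Set ℂ := {1 - θ * I}ᶜ
  have hU : IsOpen U := isOpen_compl_singleton
  have hconn : IsPreconnected U := (isConnected_compl_singleton_of_one_lt_rank
    (by rw [Complex.rank_real_complex]; exact Nat.one_lt_ofNat) _).isPreconnected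
  have hd : DifferentiableOn ℂ
      (fun z => (z - 1) ^ m * (LSeries u (z + θ * I) * χ.LFunction (z + θ * I))) U := by
    intro z hz
    refine (DifferentiableAt.mul (by fun_prop)
      (DifferentiableAt.mul ?_ ?_)).differentiableWithinAt
    · simp only [lSeries_eq_sum hu]
      refine DifferentiableAt.fun_sum fun n _ => ?_
      rcases eq_or_ne n 0 with rfl | hn
      · simp only [LSeries.term_zero]
        exact differentiableAt_const _
      · simp only [LSeries.term_of_ne_zero hn]
        exact (differentiableAt_const _).div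
          ((differentiableAt_id.add_const _).const_cpow (Or.inl (Nat.cast_ne_zero.2 hn)))
          (cpow_ne_zero_iff.2 (Or.inl (Nat.cast_ne_zero.2 hn)))
    · exact (DirichletCharacter.differentiableAt_LFunction χ _ (Or.inl fun e => hz (by
        rw [mem_singleton_iff]
        linear_combination e))).comp z (differentiableAt_id.add_const _)
  refine AnalyticOnNhd.eqOn_of_preconnected_of_eventuallyEq
    (h.differentiable.differentiableOn.analyticOnNhd hU) (hd.analyticOnNhd hU) hconn
    (show (2 : ℂ) ∈ U from fun e => by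
      have := congrArg Complex.re (mem_singleton_iff.1 e)
      simp at this) ?_ hs
  filter_upwards [(isOpen_lt continuous_const Complex.continuous_re).mem_nhds
    (show (2 : ℂ) ∈ {z : ℂ | 1 < z.re} by simp)] with z hz
  rw [h.eq_series z hz, hL z hz]

/-- Both functional equations make the finite part its own reflection. -/
theorem exists_top_finite (h : HasFunctionalEquation a m E lam mu Q omega) (hd : degree lam = 1)
    {f : ℕ} [NeZero f] {χ : DirichletCharacter ℂ f} (hχ : χ.IsPrimitive) {u : ℕ → ℂ} {N : ℕ}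
    (hu : ∀ n, N < n → u n = 0) (hu1 : u 1 = 1)
    (hL : ∀ s : ℂ, 1 < s.re →
      LSeries a s = LSeries u (s + twist mu * I) * χ.LFunction (s + twist mu * I)) :
    ∃ M : ℕ, M ≠ 0 ∧ rateK lam Q - Real.log (f / (2 * π)) = Real.log M ∧
      (∀ n, n ≠ 0 → u n ≠ 0 → n ∣ M) ∧ ‖u M‖ ^ 2 = M := by
  set θ := twist mu with hθ
  set σ : ℝ := -(1 / 4) with hσ
  set Q₁ := Real.sqrt ((f : ℝ) / π)
  have hQ₁ : 0 < Q₁ :=
    Real.sqrt_pos.2 (div_pos (Nat.cast_pos.2 (Nat.pos_of_ne_zero (NeZero.ne f))) Real.pi_pos)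
  set lam₁ : Fin 1 → ℝ := fun _ => 1 / 2
  set mu₁ : Fin 1 → ℂ := fun _ => ((parity χ : ℂ) + θ * I) / 2
  obtain ⟨K, hK0, hK⟩ := tendsto_kernel (mu := mu) h.lam_pos h.Q_pos hd σ
  obtain ⟨K₁, hK₁0, hK₁⟩ := tendsto_kernel (mu := mu₁) (lam := lam₁) (fun _ => by norm_num [lam₁])
    hQ₁ (by simp [degree, lam₁]) σ
  obtain ⟨e, he⟩ := lFunction_left hχ θ
  have hτ : shiftT mu₁ = shiftT mu := by
    simp [shiftT, mu₁, hθ, twist, Complex.div_ofNat_im]
  set ν := rateK lam Q - rateK lam₁ Q₁ with hν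
  set X : ℝ → ℂ := fun t => reflRatio lam mu Q (pt σ t) * Complex.Gamma (pt σ t) *
    cexp ((π * t / 2 : ℝ) : ℂ) * cexp (((rateK lam Q * t - shiftT mu * Real.log t : ℝ) : ℂ) * I)
  set X₁ : ℝ → ℂ := fun t => reflRatio lam₁ mu₁ Q₁ (pt σ t) * Complex.Gamma (pt σ t) *
    cexp ((π * t / 2 : ℝ) : ℂ) *
      cexp (((rateK lam₁ Q₁ * t - shiftT mu₁ * Real.log t : ℝ) : ℂ) * I)
  have hω : omega ≠ 0 := norm_ne_zero_iff.1 (by rw [h.norm_omega]; exact one_ne_zero)
  set D₁ : ℝ → ℂ := fun t => LSeries u (pt σ t + θ * I)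
  set D₂ : ℝ → ℂ := fun t => conj (LSeries u (pt (1 - σ) t + θ * I))
  have hkey : ∀ t : ℝ, e * X₁ t * D₁ t = omega * X t * cexp ((-ν : ℝ) * I * t) * D₂ t := by
    intro t
    have hs : (pt σ t).re < 0 := by rw [pt_re, hσ]; norm_num
    have h1 : E (pt σ t) = (pt σ t - 1) ^ m * (D₁ t * χ.LFunction (pt σ t + θ * I)) :=
      eq_product h χ hu θ hL fun e => by
        have := congrArg Complex.re e
        simp [pt, hσ] at this
        norm_num at this
    have hne : (pt σ t - 1) ^ m ≠ 0 := pow_ne_zero m fun e => by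
      have := congrArg Complex.re e
      simp [pt, hσ] at this
      norm_num at this
    have hw : 1 < (pt (1 - σ) t).re := by rw [pt_re, hσ]; norm_num
    have h2 := h.functional_equation _ hs
    rw [h1, FA.DegreeGap.one_sub_conj_pt] at h2
    have h3 := mul_left_cancel₀ hne h2
    have hR := conj_inv_eq (lam := lam) (mu := mu) h.Q_pos (pt σ t)
    rw [FA.DegreeGap.one_sub_conj_pt] at hR
    rw [he _ hs, FA.DegreeGap.one_sub_conj_pt, hL _ hw, map_mul, map_mul,
      DirichletCharacter.LFunction_eq_LSeries χ (by simpa using hw)] at h3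
    have hne2 : conj (LSeries (fun n : ℕ => χ n) (pt (1 - σ) t + θ * I)) ≠ 0 :=
      (map_ne_zero _).2 (DirichletCharacter.LSeries_ne_zero_of_one_lt_re χ (by simpa using hw))
    have h4 : e * reflRatio lam₁ mu₁ Q₁ (pt σ t) * D₁ t =
        omega * reflRatio lam mu Q (pt σ t) * D₂ t := by
      refine mul_right_cancel₀ hne2 ?_
      rw [← hR]
      linear_combination h3
    have hexp : cexp (((rateK lam Q * t - shiftT mu * Real.log t : ℝ) : ℂ) * I) *
        cexp ((-ν : ℝ) * I * t) =
        cexp (((rateK lam₁ Q₁ * t - shiftT mu₁ * Real.log t : ℝ) : ℂ) * I) := by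
      rw [← Complex.exp_add, hτ, hν]
      congr 1
      push_cast
      ring
    simp only [X, X₁, ← hexp]
    linear_combination (Complex.Gamma (pt σ t) * cexp ((π * t / 2 : ℝ) : ℂ) *
      cexp (((rateK lam Q * t - shiftT mu * Real.log t : ℝ) : ℂ) * I) *
      cexp ((-ν : ℝ) * I * t)) * h4
  obtain ⟨B, hB⟩ : ∃ B : ℝ, ∀ t, ‖D₁ t‖ ≤ B ∧ ‖D₂ t‖ ≤ B := by
    refine ⟨max (∑' n, ‖LSeries.term u (σ : ℂ) n‖) (∑' n, ‖LSeries.term u ((1 - σ : ℝ) : ℂ) n‖),
      fun t => ?_⟩
    have e1 : ∀ c : ℝ, pt c t + θ * I = pt c (t + θ) := fun c => by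
      simp only [pt]; push_cast; ring
    simp only [D₁, D₂, e1, Complex.norm_conj]
    exact ⟨(norm_lSeries_line_le (lSeriesSummable_of_bounded hu _) _).trans (le_max_left _ _),
      (norm_lSeries_line_le (lSeriesSummable_of_bounded hu _) _).trans (le_max_right _ _)⟩
  have hlim : Tendsto (fun t : ℝ => e * K₁ * D₁ t -
      omega * K * cexp ((-ν : ℝ) * I * t) * D₂ t) atTop (𝓝 0) := by
    have h1 := (((hK₁.const_sub K₁).norm.const_mul ‖e‖).add
      ((hK.sub_const K).norm.const_mul ‖omega‖)).mul_const B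
    simp only [sub_self, norm_zero, mul_zero, add_zero, zero_mul] at h1
    refine squeeze_zero_norm (fun t => ?_) h1
    rw [show e * K₁ * D₁ t - omega * K * cexp ((-ν : ℝ) * I * t) * D₂ t =
      e * (K₁ - X₁ t) * D₁ t + omega * (X t - K) * (cexp ((-ν : ℝ) * I * t) * D₂ t) by
        linear_combination hkey t]
    refine (norm_add_le _ _).trans ?_
    rw [norm_mul, norm_mul, norm_mul, norm_mul, norm_mul,
      show ((-ν : ℝ) : ℂ) * I * t = ((-ν * t : ℝ) : ℂ) * I by push_cast; ring,
      Complex.norm_exp_ofReal_mul_I, one_mul, add_mul]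
    exact add_le_add (mul_le_mul_of_nonneg_left (hB t).1 (by positivity))
      (mul_le_mul_of_nonneg_left (hB t).2 (by positivity))
  have hshift := hlim.comp (tendsto_atTop_add_const_right atTop (-θ) tendsto_id)
  obtain ⟨M, hM, hνM, hdvd, hsq⟩ := exists_top hu hu1 (σ := σ) (ν := ν) (c₁ := e * K₁)
    (c₂ := omega * K * cexp ((ν * θ : ℝ) * I))
    (mul_ne_zero (mul_ne_zero hω hK0) (Complex.exp_ne_zero _)) (hshift.congr fun t => by
      simp only [Function.comp_apply, id, D₁, D₂]
      have e1 : ∀ c : ℝ, pt c (t + -θ) + θ * I = pt c t := fun c => by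
        simp only [pt]; push_cast; ring
      rw [e1, e1, mul_assoc (omega * K) (cexp ((ν * θ : ℝ) * I)), ← Complex.exp_add]
      congr 4
      push_cast
      ring)
  exact ⟨M, hM, by rw [← rateK_char f]; exact hνM, hdvd, hsq⟩

/-- **The Selberg class in degree one.** -/
theorem exists_primitive (h : HasFunctionalEquation a m E lam mu Q omega) (he : HasEulerProduct a)
    (hd : degree lam = 1) :
    ∃ (f : ℕ) (_ : NeZero f) (χ : DirichletCharacter ℂ f), χ.IsPrimitive ∧
      (f : ℝ) = 2 * π * Q ^ 2 * ∏ j, lam j ^ (2 * lam j) ∧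
      (∀ n : ℕ, n ≠ 0 → a n = χ n * (n : ℂ) ^ (-((twist mu : ℂ) * I))) ∧
      (∀ s : ℂ, 1 < s.re → LSeries a s = χ.LFunction (s + twist mu * I)) ∧
      ∀ s : ℂ, s ≠ 1 - twist mu * I → E s = (s - 1) ^ m * χ.LFunction (s + twist mu * I) := by
  obtain ⟨q, hq, g, hqR, hg, hL⟩ := exists_structure h hd one_ne_zero (by rw [he.map_one]; simp)
  have hg1 : g 1 = 1 := by
    have h1 := hg 1 one_ne_zero
    rw [he.map_one, one_mul, Nat.cast_one, Nat.cast_one, one_cpow] at h1
    exact h1.symm
  have hmul : ∀ k n : ℕ, Nat.Coprime k n → g (k * n : ℕ) = g k * g n := by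
    intro k n hkn
    rcases eq_or_ne k 0 with rfl | hk
    · rw [Nat.coprime_zero_left] at hkn
      subst hkn
      simp [hg1]
    rcases eq_or_ne n 0 with rfl | hn
    · rw [Nat.coprime_zero_right] at hkn
      subst hkn
      simp [hg1]
    rw [← hg _ (mul_ne_zero hk hn), ← hg k hk, ← hg n hn, he.map_mul k n hkn, Nat.cast_mul,
      natCast_mul_natCast_cpow]
    ring
  obtain ⟨θ₀, hθ₀, hloc₀⟩ := he.local_factors
  set θe := max θ₀ 0
  have hθe : θe < 1 / 2 := max_lt hθ₀ (by norm_num)
  have hloc : LocalFactors (fun n : ℕ => g n) θe :=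
    localFactors_twist (hloc₀.mono (le_max_left _ _)) _ hg
  obtain ⟨χ, hχ⟩ := exists_char g hg1 hmul
  have : NeZero χ.conductor := ⟨DirichletCharacter.conductor_ne_zero χ⟩
  set ψ := χ.primitiveCharacter
  set u : ℕ → ℂ := fun n => finitePart g χ n
  have hu : ∀ n, q < n → u n = 0 := fun n hn => finitePart_eq_zero hg1 hmul hχ fun hdvd =>
    absurd (Nat.le_of_dvd (Nat.pos_of_ne_zero (NeZero.ne q)) hdvd) (not_le.2 hn)
  have hu1 : u 1 = 1 := finitePart_one hg1 hmul
  have hLu : ∀ s : ℂ, 1 < s.re →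
      LSeries a s = LSeries u (s + twist mu * I) * ψ.LFunction (s + twist mu * I) := by
    intro s hs
    have hs' : 1 < (s + (twist mu : ℂ) * I).re := by simpa using hs
    rw [hL s hs, ZMod.LFunction_eq_LSeries g hs', lSeries_factor hu hs',
      DirichletCharacter.LFunction_eq_LSeries ψ hs']
  obtain ⟨M, hM, hνM, hdvd, hsq⟩ := exists_top_finite h hd
    χ.primitiveCharacter_isPrimitive hu hu1 hLu
  have hM1 : M = 1 := eq_one_of_reflected (h := u) hu1
    (fun k n hkn => (isMultiplicative_finitePart hg1 hmul).map_mul_of_coprime hkn) hθe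
    (fun p hp X hX => finitePart_local_ne_zero hg1 hmul (le_max_right _ _) hloc hp hX) hM hdvd hsq
  subst hM1
  have hfp : finitePart g χ = 1 := by
    ext n
    rcases eq_or_ne n 1 with rfl | hn1
    · rw [ArithmeticFunction.one_one]
      exact hu1
    rw [ArithmeticFunction.one_apply_ne hn1]
    by_contra hne
    rcases eq_or_ne n 0 with rfl | hn0
    · exact hne ArithmeticFunction.map_zero
    exact hn1 (Nat.dvd_one.1 (hdvd n hn0 hne))
  have hgψ : ∀ n : ℕ, n ≠ 0 → g n = ψ n := fun n hn => by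
    have h1 := finitePart_mul g χ
    rw [hfp, one_mul] at h1
    have h2 := congrArg (fun F : ArithmeticFunction ℂ => F n) h1
    simpa [coe_toArithmeticFunction hn] using h2.symm
  have hLψ : ∀ s : ℂ, 1 < s.re → LSeries a s = ψ.LFunction (s + twist mu * I) := fun s hs => by
    have hs' : 1 < (s + (twist mu : ℂ) * I).re := by simpa using hs
    rw [hL s hs, ZMod.LFunction_eq_LSeries g hs', DirichletCharacter.LFunction_eq_LSeries ψ hs']
    exact LSeries_congr (fun {n} hn => hgψ n hn) _
  refine ⟨χ.conductor, inferInstance, ψ, χ.primitiveCharacter_isPrimitive, ?_, fun n hn => ?_,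
    hLψ, fun s hs => ?_⟩
  · rw [Nat.cast_one, Real.log_one, sub_eq_zero] at hνM
    have hf : (0 : ℝ) < χ.conductor := Nat.cast_pos.2 (Nat.pos_of_ne_zero (NeZero.ne _))
    rw [← FA.DegreeOne.two_pi_exp_rateK h.lam_pos h.Q_pos, hνM,
      Real.exp_log (div_pos hf Real.two_pi_pos)]
    field_simp
  · rw [← hgψ n hn, ← hg n hn, mul_assoc, ← cpow_add _ _ (Nat.cast_ne_zero.2 hn), add_neg_cancel,
      cpow_zero, mul_one]
  · rw [eq_product h ψ (N := 1) (u := fun n => if n = 1 then 1 else 0)
      (fun n hn => if_neg (by omega)) (twist mu) (fun z hz => ?_) hs]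
    · rw [LSeries, tsum_eq_single 1 fun n hn => ?_]
      · simp [LSeries.term_of_ne_zero]
      · simp [LSeries.term, hn]
    · rw [hLψ z hz, LSeries, tsum_eq_single 1 fun n hn => ?_]
      · simp [LSeries.term_of_ne_zero]
      · simp [LSeries.term, hn]

end FA.SelbergClass

end
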