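import Fermat.Agent.DegreeGap.Main

/-!
# A finite series that is its own reflection

If `c₁ D (σ + it) - c₂ e^(-iνt) conj D (1 - σ + it) → 0` for a finite series `D` with constant term
`1`, then `ν = log M` for the largest index `M`, every index divides `M`, and `|h M|² = M`.
-/

set_option autoImplicit false

noncomputable section

open Complex MeasureTheory Filter Set Topology
open scoped Real ComplexConjugate
open FA.DegreeGap (pt pt_re tendsto_bohr_mean term_pt_mul tendsto_mean_line)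

namespace FA.SelbergClass

theorem tendsto_mean_zero {g : ℝ → ℂ} (hg : Continuous g) (h0 : Tendsto g atTop (𝓝 0)) :
    Tendsto (fun T : ℝ => (T : ℂ)⁻¹ * ∫ t in (0 : ℝ)..T, g t) atTop (𝓝 0) := by
  rw [NormedAddGroup.tendsto_nhds_zero]
  intro ε hε
  obtain ⟨T₀, hT₀⟩ := eventually_atTop.1
    (h0.norm.eventually (Iic_mem_nhds (show ‖(0 : ℂ)‖ < ε / 2 by simp; linarith)))
  set T₁ := max T₀ 1
  have hT₁ : 0 < T₁ := lt_max_of_lt_right one_pos
  set S := ‖∫ t in (0 : ℝ)..T₁, g t‖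
  filter_upwards [eventually_gt_atTop T₁, eventually_gt_atTop (S * 2 / ε)] with T hT1 hT2
  have hT0 : 0 < T := hT₁.trans hT1
  rw [norm_mul, norm_inv, Complex.norm_real, Real.norm_of_nonneg hT0.le,
    ← intervalIntegral.integral_add_adjacent_intervals (hg.intervalIntegrable 0 T₁)
      (hg.intervalIntegrable T₁ T)]
  have h2 : ‖∫ t in T₁..T, g t‖ ≤ ε / 2 * |T - T₁| := by
    refine intervalIntegral.norm_integral_le_of_norm_le_const fun t ht => ?_
    rw [uIoc_of_le hT1.le] at ht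
    exact hT₀ t ((le_max_left _ _).trans ht.1.le)
  rw [abs_of_pos (sub_pos.2 hT1)] at h2
  rw [inv_mul_lt_iff₀ hT0]
  rw [div_lt_iff₀ hε] at hT2
  have h3 : 0 < ε * T₁ := mul_pos hε hT₁
  linarith [norm_add_le (∫ t in (0 : ℝ)..T₁, g t) (∫ t in T₁..T, g t)]

theorem lSeriesSummable_of_bounded {h : ℕ → ℂ} {N : ℕ} (hN : ∀ n, N < n → h n = 0) (s : ℂ) :
    LSeriesSummable h s :=
  summable_of_ne_finset_zero (s := Finset.range (N + 1)) fun n hn => by
    rw [Finset.mem_range, not_lt] at hn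
    rcases eq_or_ne n 0 with rfl | h0
    · omega
    rw [LSeries.term_of_ne_zero h0, hN n (by omega), zero_div]

theorem lSeries_eq_sum {h : ℕ → ℂ} {N : ℕ} (hN : ∀ n, N < n → h n = 0) (s : ℂ) :
    LSeries h s = ∑ n ∈ Finset.range (N + 1), LSeries.term h s n :=
  tsum_eq_sum fun n hn => by
    rw [Finset.mem_range, not_lt] at hn
    rcases eq_or_ne n 0 with rfl | h0
    · omega
    rw [LSeries.term_of_ne_zero h0, hN n (by omega), zero_div]

theorem conj_lSeries_mul {h : ℕ → ℂ} (σ t θ : ℝ) :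
    conj (LSeries h (pt σ t)) * cexp ((θ : ℂ) * I * t) = ∑' j, conj (LSeries.term h (σ : ℂ) j) *
      cexp (((θ + Real.log j : ℝ) : ℂ) * I * t) := by
  rw [LSeries, Complex.conj_tsum, ← tsum_mul_right]
  refine tsum_congr fun j => ?_
  have h1 := congrArg conj (term_pt_mul h σ t (-θ) j)
  simp only [map_mul, ← Complex.exp_conj, conj_ofReal, conj_I] at h1
  convert h1 using 2 <;> congr 1 <;> push_cast <;> ring

theorem continuous_line {h : ℕ → ℂ} {σ : ℝ} (hs : LSeriesSummable h (σ : ℂ)) :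
    Continuous fun t : ℝ => LSeries h (pt σ t) := by
  refine continuous_tsum (fun n => ?_) hs.norm
    fun n t => LSeries.norm_term_le_of_re_le_re h (by simp [pt]) n
  rcases eq_or_ne n 0 with rfl | hn
  · simp only [LSeries.term_zero]
    exact continuous_const
  · simp only [LSeries.term_of_ne_zero hn]
    exact continuous_const.div ((FA.DegreeGap.continuous_pt σ).const_cpow
      (Or.inl (Nat.cast_ne_zero.2 hn))) fun t => cpow_ne_zero_iff.2 (Or.inl (Nat.cast_ne_zero.2 hn))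

/-- **The pairing**, for a series converging absolutely on both lines. -/
theorem exists_top_summable {h : ℕ → ℂ} (h1 : h 1 = 1) {σ ν : ℝ}
    (hs₁ : LSeriesSummable h (σ : ℂ)) (hs₂ : LSeriesSummable h ((1 - σ : ℝ) : ℂ)) {c₁ c₂ : ℂ}
    (hc₂ : c₂ ≠ 0) (hlim : Tendsto (fun t : ℝ => c₁ * LSeries h (pt σ t) -
      c₂ * cexp ((-ν : ℝ) * I * t) * conj (LSeries h (pt (1 - σ) t))) atTop (𝓝 0)) :
    ∃ M : ℕ, M ≠ 0 ∧ ν = Real.log M ∧ (∀ n, n ≠ 0 → h n ≠ 0 → n ∣ M) ∧ ‖h M‖ ^ 2 = M := by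
  set U : ℕ → ℂ := fun j => conj (LSeries.term h ((1 - σ : ℝ) : ℂ) j)
  have hmean : ∀ θ : ℝ,
      c₁ * (∑' j : ℕ, if θ - Real.log j = 0 then LSeries.term h (σ : ℂ) j else 0) =
      c₂ * ∑' j : ℕ, if θ - ν + Real.log j = 0 then U j else 0 := by
    intro θ
    set g : ℝ → ℂ := fun t => (c₁ * LSeries h (pt σ t) -
      c₂ * cexp ((-ν : ℝ) * I * t) * conj (LSeries h (pt (1 - σ) t))) * cexp ((θ : ℂ) * I * t)
    have hc1 := continuous_line hs₁
    have hc2 := Complex.continuous_conj.comp (continuous_line hs₂)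
    have hg : Continuous g :=
      ((continuous_const.mul hc1).sub ((continuous_const.mul (by fun_prop)).mul hc2)).mul
        (by fun_prop)
    have hg0 : Tendsto g atTop (𝓝 0) := by
      have h0 := hlim.norm
      rw [norm_zero] at h0
      refine squeeze_zero_norm (fun t => ?_) h0
      simp only [g]
      rw [norm_mul, show (θ : ℂ) * I * t = ((θ * t : ℝ) : ℂ) * I by push_cast; ring,
        Complex.norm_exp_ofReal_mul_I, mul_one]
    have hA := (tendsto_bohr_mean hs₁.norm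
      fun j => θ - Real.log j).const_mul c₁
    have hB := (tendsto_bohr_mean (c := U) (by
      simpa [U, Complex.norm_conj] using hs₂.norm)
      fun j => θ - ν + Real.log j).const_mul c₂
    have hkey : ∀ t : ℝ, g t =
        c₁ * (∑' j, LSeries.term h (σ : ℂ) j * cexp (((θ - Real.log j : ℝ) : ℂ) * I * t)) -
          c₂ * ∑' j, U j * cexp (((θ - ν + Real.log j : ℝ) : ℂ) * I * t) := by
      intro t
      have e1 : LSeries h (pt σ t) * cexp ((θ : ℂ) * I * t) =
          ∑' j, LSeries.term h (σ : ℂ) j * cexp (((θ - Real.log j : ℝ) : ℂ) * I * t) := by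
        rw [LSeries, ← tsum_mul_right]
        exact tsum_congr fun j => term_pt_mul h σ t θ j
      have e3 : cexp ((-ν : ℝ) * I * t) * cexp ((θ : ℂ) * I * t) =
          cexp (((θ - ν : ℝ) : ℂ) * I * t) := by
        rw [← Complex.exp_add]
        congr 1
        push_cast
        ring
      rw [← e1, ← conj_lSeries_mul, ← e3]
      simp only [g]
      ring
    have hi : ∀ (u : ℕ → ℂ), Summable (fun j => ‖u j‖) → ∀ (κ : ℕ → ℝ) (T : ℝ),
        IntervalIntegrable (fun t => ∑' j, u j * cexp ((κ j : ℂ) * I * t)) volume 0 T :=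
      fun u hu κ T => (continuous_tsum (fun j => by fun_prop) hu fun j t => by
        rw [norm_mul, show (κ j : ℂ) * I * t = ((κ j * t : ℝ) : ℂ) * I by push_cast; ring,
          Complex.norm_exp_ofReal_mul_I, mul_one]).intervalIntegrable _ _
    refine sub_eq_zero.1 (tendsto_nhds_unique ((hA.sub hB).congr fun T => ?_)
      (tendsto_mean_zero hg hg0))
    simp only [hkey]
    rw [intervalIntegral.integral_sub
      ((hi _ hs₁.norm _ T).const_mul c₁)
      ((hi _ (by simpa [U, Complex.norm_conj] using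
        hs₂.norm) _ T).const_mul c₂),
      intervalIntegral.integral_const_mul, intervalIntegral.integral_const_mul]
    ring
  have hinj : ∀ {n j : ℕ}, n ≠ 0 → j ≠ 0 → Real.log n = Real.log j → n = j := fun hn hj e =>
    Nat.cast_injective (Real.log_injOn_pos (Set.mem_Ioi.2 (Nat.cast_pos.2 (Nat.pos_of_ne_zero hn)))
      (Set.mem_Ioi.2 (Nat.cast_pos.2 (Nat.pos_of_ne_zero hj))) e)
  have hleft : ∀ {n : ℕ}, n ≠ 0 →
      (∑' j : ℕ, if Real.log n - Real.log j = 0 then LSeries.term h (σ : ℂ) j else 0) =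
        LSeries.term h (σ : ℂ) n := fun {n} hn => by
    rw [tsum_eq_single n fun j hj => ?_, if_pos (sub_self _)]
    rcases eq_or_ne j 0 with rfl | hj0
    · simp
    exact if_neg fun e => hj (hinj hj0 hn (by linarith))
  have hright : ∀ θ : ℝ, (∑' j : ℕ, if θ - ν + Real.log j = 0 then U j else 0) ≠ 0 →
      ∃ j : ℕ, j ≠ 0 ∧ h j ≠ 0 ∧ θ + Real.log j = ν ∧
        (∑' i : ℕ, if θ - ν + Real.log i = 0 then U i else 0) = U j := by
    intro θ hne
    obtain ⟨j, hj⟩ : ∃ j : ℕ, (if θ - ν + Real.log j = 0 then U j else 0) ≠ 0 := by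
      by_contra hno
      push Not at hno
      exact hne ((tsum_congr hno).trans tsum_zero)
    split_ifs at hj with e
    · have hj0 : j ≠ 0 := fun e0 => hj (by simp [U, e0])
      refine ⟨j, hj0, fun e0 => hj ?_, by linarith, ?_⟩
      · simp [U, LSeries.term_of_ne_zero hj0, e0]
      · rw [tsum_eq_single j fun i hi => ?_, if_pos e]
        rcases eq_or_ne i 0 with rfl | hi0
        · simp [U]
        exact if_neg fun e' => hi (hinj hi0 hj0 (by linarith))
    · exact absurd rfl hj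
  have hU : ∀ {j : ℕ}, j ≠ 0 → ‖U j‖ = ‖h j‖ / (j : ℝ) ^ (1 - σ) := fun {j} hj => by
    simp only [U]
    rw [Complex.norm_conj, LSeries.norm_term_eq, if_neg hj, ofReal_re]
  have hc₁ : c₁ ≠ 0 := by
    intro e
    have h2 := hmean ν
    rw [e, zero_mul, sub_self, tsum_eq_single 1 fun j hj => ?_] at h2
    · simp [U, h1] at h2
      exact hc₂ h2.symm
    · rcases eq_or_ne j 0 with rfl | hj0
      · simp [U]
      exact if_neg fun e' => hj (hinj hj0 one_ne_zero (by simpa using e'))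
  have hpair : ∀ {n : ℕ}, n ≠ 0 → h n ≠ 0 → ∃ j : ℕ, j ≠ 0 ∧ h j ≠ 0 ∧
      Real.log n + Real.log j = ν ∧ c₁ * LSeries.term h (σ : ℂ) n = c₂ * U j := by
    intro n hn hne
    have h2 := hmean (Real.log n)
    rw [hleft hn] at h2
    have h3 : c₁ * LSeries.term h (σ : ℂ) n ≠ 0 := by
      rw [LSeries.term_of_ne_zero hn]
      exact mul_ne_zero hc₁ (div_ne_zero hne (cpow_ne_zero_iff.2 (Or.inl (Nat.cast_ne_zero.2 hn))))
    rw [h2] at h3
    obtain ⟨j, hj, hjne, he, hs⟩ := hright _ (right_ne_zero_of_mul h3)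
    exact ⟨j, hj, hjne, he, by rw [h2, hs]⟩
  obtain ⟨M, hM, hMne, hνM, e1⟩ := hpair one_ne_zero (by rw [h1]; exact one_ne_zero)
  rw [Nat.cast_one, Real.log_one, zero_add] at hνM
  refine ⟨M, hM, hνM.symm, fun n hn hne => ?_, ?_⟩
  · obtain ⟨j, hj, -, he, -⟩ := hpair hn hne
    refine ⟨j, (hinj hM (mul_ne_zero hn hj) ?_)⟩
    rw [Nat.cast_mul, Real.log_mul (Nat.cast_ne_zero.2 hn) (Nat.cast_ne_zero.2 hj), hνM, ← he]
  · obtain ⟨j, hj, -, he, e2⟩ := hpair hM hMne
    obtain rfl : j = 1 := hinj hj one_ne_zero (by rw [Nat.cast_one, Real.log_one]; linarith)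
    have n1 := congrArg norm e1
    have n2 := congrArg norm e2
    simp only [norm_mul, hU hM, hU one_ne_zero, LSeries.norm_term_eq, hM, one_ne_zero, if_false,
      ofReal_re, h1, norm_one, Nat.cast_one, Real.one_rpow, div_one, mul_one] at n1 n2
    have hM0 : (0 : ℝ) < M := Nat.cast_pos.2 (Nat.pos_of_ne_zero hM)
    have hp : (M : ℝ) ^ σ * (M : ℝ) ^ (1 - σ) = M := by
      rw [← Real.rpow_add hM0, add_sub_cancel, Real.rpow_one]
    have := Real.rpow_pos_of_pos hM0 σ
    have := Real.rpow_pos_of_pos hM0 (1 - σ)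
    have hc : 0 < ‖c₂‖ := norm_pos_iff.2 hc₂
    field_simp at n1 n2
    have hkey : ‖c₂‖ * ‖h M‖ ^ 2 = ‖c₂‖ * M := by
      calc ‖c₂‖ * ‖h M‖ ^ 2 = (‖c₂‖ * ‖h M‖) * ‖h M‖ := by ring
        _ = ‖c₁‖ * (M : ℝ) ^ (1 - σ) * ‖h M‖ := by rw [← n1]
        _ = ‖c₁‖ * ‖h M‖ * (M : ℝ) ^ (1 - σ) := by ring
        _ = ‖c₂‖ * ((M : ℝ) ^ σ * (M : ℝ) ^ (1 - σ)) := by rw [n2]; ring
        _ = ‖c₂‖ * M := by rw [hp]
    exact mul_left_cancel₀ hc.ne' hkey

/-- The pairing, for a finite series. -/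
theorem exists_top {h : ℕ → ℂ} {N : ℕ} (hN : ∀ n, N < n → h n = 0) (h1 : h 1 = 1) {σ ν : ℝ}
    {c₁ c₂ : ℂ} (hc₂ : c₂ ≠ 0)
    (hlim : Tendsto (fun t : ℝ => c₁ * LSeries h (pt σ t) -
      c₂ * cexp ((-ν : ℝ) * I * t) * conj (LSeries h (pt (1 - σ) t))) atTop (𝓝 0)) :
    ∃ M : ℕ, M ≠ 0 ∧ ν = Real.log M ∧ (∀ n, n ≠ 0 → h n ≠ 0 → n ∣ M) ∧ ‖h M‖ ^ 2 = M :=
  exists_top_summable h1 (lSeriesSummable_of_bounded hN _) (lSeriesSummable_of_bounded hN _) hc₂
    hlim

end FA.SelbergClass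

end
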