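import Fermat.Agent.SelbergClass.Character
import Fermat.Agent.SelbergClass.Euler

/-!
# The local factors and the series of the finite part
-/

set_option autoImplicit false

noncomputable section

open Complex ArithmeticFunction
open scoped Real LSeries.notation

namespace FA.SelbergClass

variable {q : ℕ} [NeZero q]

theorem localFactors_twist {a : ℕ → ℂ} {θ : ℝ} (h : LocalFactors a θ) (τ : ℝ) {g : ℕ → ℂ}
    (hg : ∀ n : ℕ, n ≠ 0 → a n * (n : ℂ) ^ ((τ : ℂ) * I) = g n) : LocalFactors g θ := by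
  intro p hp X hX
  set c := (p : ℂ) ^ ((τ : ℂ) * I)
  have hc : ‖c‖ = 1 := by
    rw [norm_natCast_cpow_of_pos hp.pos]
    simp
  obtain ⟨s, hs, hsum⟩ := h p hp (c * X) (by rw [norm_mul, hc, one_mul]; exact hX)
  refine ⟨s, hs, ?_⟩
  convert hsum using 1
  funext k
  have hck : ((p ^ k : ℕ) : ℂ) ^ ((τ : ℂ) * I) = c ^ k := by
    induction k with
    | zero => simp
    | succ k ih => rw [pow_succ p, Nat.cast_mul, natCast_mul_natCast_cpow, ih, pow_succ]
  rw [← hg _ (pow_ne_zero k hp.ne_zero), hck, mul_pow]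
  ring

omit [NeZero q] in
theorem finitePart_one {g : ZMod q → ℂ} {χ : DirichletCharacter ℂ q} (h1 : g 1 = 1)
    (hmul : ∀ m n : ℕ, Nat.Coprime m n → g (m * n : ℕ) = g m * g n) : finitePart g χ 1 = 1 :=
  (isMultiplicative_finitePart h1 hmul).map_one

omit [NeZero q] in
/-- The local factor of the finite part has no zero in the disk. -/
theorem finitePart_local_ne_zero {g : ZMod q → ℂ} {χ : DirichletCharacter ℂ q} (h1 : g 1 = 1)
    (hmul : ∀ m n : ℕ, Nat.Coprime m n → g (m * n : ℕ) = g m * g n) {θ : ℝ} (hθ : 0 ≤ θ)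
    (hloc : LocalFactors (fun n : ℕ => g n) θ) {p : ℕ} (hp : p.Prime) {X : ℂ}
    (hX : ‖X‖ < (p : ℝ) ^ (-θ)) : ∑' k, finitePart g χ (p ^ k) * X ^ k ≠ 0 := by
  obtain ⟨s, hs, hsum⟩ := hloc p hp X hX
  set w := χ.primitiveCharacter (p : ZMod χ.conductor) * X
  have hw : w ≠ 1 := fun e => by
    have h2 := congrArg norm e
    have h3 : ‖χ.primitiveCharacter (p : ZMod χ.conductor)‖ ≤ 1 :=
      DirichletCharacter.norm_le_one χ.primitiveCharacter _
    have h4 : (p : ℝ) ^ (-θ) ≤ 1 :=
      Real.rpow_le_one_of_one_le_of_nonpos (Nat.one_le_cast.2 hp.one_lt.le) (neg_nonpos.2 hθ)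
    rw [norm_mul, norm_one] at h2
    nlinarith [norm_nonneg X]
  have hshift : HasSum (fun k => g (p ^ (k + 1) : ℕ) * X ^ (k + 1)) (s - 1) := by
    refine (hasSum_nat_add_iff (f := fun k => g (p ^ k : ℕ) * X ^ k) 1).2 ?_
    simpa [h1] using hsum
  have h5 : HasSum (fun k => finitePart g χ (p ^ (k + 1)) * X ^ (k + 1)) (s - 1 - w * s) := by
    refine (hshift.sub (hsum.mul_left w)).congr_fun fun k => ?_
    simp only [w, finitePart_prime_pow g χ hp]
    ring
  have h6 := (hasSum_nat_add_iff (f := fun k => finitePart g χ (p ^ k) * X ^ k) 1).1 h5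
  simp only [Finset.range_one, Finset.sum_singleton, pow_zero, finitePart_one h1 hmul,
    mul_one] at h6
  rw [h6.tsum_eq, show s - 1 - w * s + 1 = (1 - w) * s by ring]
  exact mul_ne_zero (sub_ne_zero.2 (Ne.symm hw)) hs

/-- The series factors. -/
theorem lSeries_factor {g : ZMod q → ℂ} {χ : DirichletCharacter ℂ q} {N : ℕ}
    (hN : ∀ n, N < n → finitePart g χ n = 0) {s : ℂ} (hs : 1 < s.re) :
    LSeries (fun n : ℕ => g n) s = LSeries (fun n => finitePart g χ n) s *
      LSeries (fun n : ℕ => χ.primitiveCharacter (n : ZMod χ.conductor)) s := by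
  have : NeZero χ.conductor := ⟨DirichletCharacter.conductor_ne_zero χ⟩
  rw [← LSeries_convolution' (lSeriesSummable_of_bounded hN s)
    (DirichletCharacter.LSeriesSummable_of_one_lt_re χ.primitiveCharacter hs)]
  refine LSeries_congr (fun {n} hn => ?_) s
  have e : toArithmeticFunction (fun n => finitePart g χ n) = finitePart g χ :=
    toArithmeticFunction_eq_self _
  show g n = (toArithmeticFunction (fun n => finitePart g χ n) *
    toArithmeticFunction (fun n : ℕ => χ.primitiveCharacter (n : ZMod χ.conductor))) n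
  rw [e, finitePart_mul, coe_toArithmeticFunction hn]

end FA.SelbergClass

end
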